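import Fermat.Agent.DR.Gal.DR2
import Fermat.Agent.S19.Weil.Pairing
import Fermat.Agent.S19.Weil.Proj
import Fermat.Agent.S19.Lvl.PushPull

/-!
# S15, block P (local condition at the level `N`), abstract part.

`F ⊆ F'` function fields over `K`, `R₁, R₂` two reductions of `F'` (`F' = ` the neat level).

* `Near R m f`      : `f * h ^ m` reduces to `1` for some `h ≠ 0`;
* `KP R₁ R₂ m`      : the subgroup of `Pic⁰(F)[m]` of the classes `x = [D]`, `div f = m D`, with `f` near `1` for both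
                      reductions (`= ` the classes whose pull back to `F'` lies in `DR.Gal.Ktor`);
* `smul_sub_mem_KP` : `(g - 1) Pic⁰(F)[m] ⊆ KP` for `g` "in the inertia group";
* `kummer_mem_KP`   : `g x₁ - x₁ ∈ KP` if `m x₁ = [D₀]`, `g D₀ = D₀`;
* `weil_pullback`   : `e_m(π^* x, π^* y) = e_m(x, y) ^ [F' : F]`;
* `weil_pow_eq_one` : `KP` is almost isotropic: `e_m(x, y) ^ ((q - 1) [F' : F]) = 1`, if `φ = - q w` on `Ktor`.
-/

set_option autoImplicit false
set_option linter.unusedSectionVars false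

noncomputable section

namespace Fermat.Agent.S15.P

open AlgebraicCurve Fermat.Agent.Lib.RR Fermat.Agent.GAL Fermat.Agent.GAL.RED Fermat.Agent.DR.Gal
  Fermat.Agent.S19.Weil

section Near

variable {K F k Fb : Type*} [Field K] [Field F] [Algebra K F] [Field k] [Field Fb] [Algebra k Fb]

/-- `f` reduces to `1` after multiplication by an `m`-th power. -/
def Near (R : RedData K F k Fb) (m : ℕ) (f : F) : Prop := ∃ h : F, h ≠ 0 ∧ R.red (f * h ^ m) = 1

/-- `h = 1`; `R.red 1 = 1` (`RedData.red_one` or `red_of_mem` + `map_one`). -/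
theorem near_one (R : RedData K F k Fb) (m : ℕ) : Near R m 1 := by
  refine ⟨1, one_ne_zero, ?_⟩
  rw [one_pow, mul_one, R.red_one]

/-- `h h'`; `R.red_mul` needs membership in `R.O`: `R.mem_of_red_ne_zero` (the reductions are `1 ≠ 0`). -/
theorem Near.mul {R : RedData K F k Fb} {m : ℕ} {f f' : F} (h : Near R m f) (h' : Near R m f') :
    Near R m (f * f') := by
  obtain ⟨a, ha, h1⟩ := h
  obtain ⟨b, hb, h2⟩ := h'
  refine ⟨a * b, mul_ne_zero ha hb, ?_⟩
  have e : f * f' * (a * b) ^ m = (f * a ^ m) * (f' * b ^ m) := by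
    rw [mul_pow]
    ring
  rw [e, R.red_mul (R.mem_of_red_ne_zero (by rw [h1]; exact one_ne_zero))
    (R.mem_of_red_ne_zero (by rw [h2]; exact one_ne_zero)), h1, h2, one_mul]

/-- `h⁻¹`; `R.red_inv`. -/
theorem Near.inv {R : RedData K F k Fb} {m : ℕ} {f : F} (h : Near R m f) : Near R m f⁻¹ := by
  obtain ⟨a, ha, h1⟩ := h
  refine ⟨a⁻¹, inv_ne_zero ha, ?_⟩
  have e : f⁻¹ * a⁻¹ ^ m = (f * a ^ m)⁻¹ := by
    rw [mul_inv, inv_pow]
  rw [e, R.red_inv, h1, inv_one]

/-- constants are `m`-th powers: `c⁻¹ = d ^ m` (`IsAlgClosed.exists_pow_nat_eq`), replace `h` by `algebraMap d * h`. -/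
theorem Near.const_mul [IsAlgClosed K] {R : RedData K F k Fb} {m : ℕ} (hm : 0 < m) {f : F}
    (h : Near R m f) {c : K} (hc : c ≠ 0) : Near R m (algebraMap K F c * f) := by
  obtain ⟨a, ha, h1⟩ := h
  obtain ⟨d, hd⟩ := IsAlgClosed.exists_pow_nat_eq c⁻¹ hm
  have hd0 : d ≠ 0 := by
    rintro rfl
    rw [zero_pow hm.ne'] at hd
    exact inv_ne_zero hc hd.symm
  refine ⟨algebraMap K F d * a, mul_ne_zero ((map_ne_zero _).2 hd0) ha, ?_⟩
  have e : algebraMap K F c * f * (algebraMap K F d * a) ^ m = f * a ^ m := by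
    rw [mul_pow, ← map_pow, hd, map_inv₀]
    have : algebraMap K F c ≠ 0 := (map_ne_zero _).2 hc
    field_simp
  rw [e, h1]

/-- The core of `DR.Gal.smul_sub_mem_Kone`, for an arbitrary function.  `hS f hf` gives `a ≠ 0` with
`R.red (a f) ≠ 0`; `h.red_smul_div` gives `R.red (g • (a f) * (a f)⁻¹) = 1`; and
`g • (a f) * (a f)⁻¹ = algebraMap (baseAut g a / a) * (g • f / f)` (`SemilinearAut.smul_algebraMap`-type lemma, see the
proof of `DR.Gal.smul_sub_mem_Kone` / `mk_eq_zero_of_const`); write the constant as `d ^ m`, `h := algebraMap d`. -/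
theorem near_smul_div [IsAlgClosed K] (R : RedData K F k Fb) {m : ℕ} (hm : 0 < m) (hS : HasScale R)
    (g : SemilinearAut K F) (h : Compat R g (RingEquiv.refl Fb)) {f : F} (hf : f ≠ 0) :
    Near R m (g • f / f) := by
  obtain ⟨a, ha, haf⟩ := hS f hf
  have h1 := h.red_smul_div haf
  have hga : SemilinearAut.baseAut g a ≠ 0 := (map_ne_zero _).2 ha
  obtain ⟨d, hd⟩ := IsAlgClosed.exists_pow_nat_eq (SemilinearAut.baseAut g a / a) hm
  have hd0 : d ≠ 0 := by
    intro h0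
    rw [h0, zero_pow hm.ne'] at hd
    exact div_ne_zero hga ha hd.symm
  refine ⟨algebraMap K F d, (map_ne_zero _).2 hd0, ?_⟩
  rw [← h1, ← map_pow, hd, smul_mul', SemilinearAut.smul_algebraMap, map_div₀]
  have hane : algebraMap K F a ≠ 0 := (map_ne_zero _).2 ha
  congr 1
  field_simp

/-- `Near` and `Kone`: the representative is `u * (Units.mk0 h) ^ m` (a Kummer unit: `kummerPowers ≤ kummerUnits`,
or directly `ord (h ^ m) = m * ord h`), same class by `KV.mk_mul` + `KV.mk_eq_zero_iff`. -/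
theorem mk_mem_Kone_of_near (R : RedData K F k Fb) {m : ℕ} (u : kummerUnits K F m)
    (h : Near R m ((u : Fˣ) : F)) : KV.mk u ∈ Kone R m := by
  obtain ⟨y, hy, hred⟩ := h
  refine ⟨u * ⟨(Units.mk0 y hy) ^ m, pow_mem_kummerUnits m _⟩, ?_, ?_⟩
  · rw [KV.mk_mul, add_eq_left, KV.mk_eq_zero_iff]
    exact ⟨Units.mk0 y hy, rfl⟩
  · rw [← hred]
    rfl

end Near

section Rep

variable {K F : Type*} [Field K] [IsAlgClosed K] [CharZero K] [Field F] [Algebra K F] [IsFF K F]

/-- `divOf f⁻¹ = - divOf f`, `Pic0.mk (-D) = - Pic0.mk D`. -/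
theorem isRep_neg {m : ℕ} {x : Pic0 K F} {D : Divisor K F} {f : F} (h : IsRep m x D f) :
    IsRep m (-x) (-D) f⁻¹ := by
  obtain ⟨hD, rfl, hf, hdiv⟩ := h
  refine ⟨neg_mem hD, rfl, inv_ne_zero hf, ?_⟩
  rw [divOf_inv, hdiv, smul_neg]

/-- `IsRep.add` + `isRep_neg`. -/
theorem isRep_sub {m : ℕ} {x x' : Pic0 K F} {D D' : Divisor K F} {f f' : F} (h : IsRep m x D f)
    (h' : IsRep m x' D' f') : IsRep m (x - x') (D - D') (f / f') := by
  rw [sub_eq_add_neg, sub_eq_add_neg, div_eq_mul_inv]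
  exact h.add (isRep_neg h')

/-- The Kummer unit of a representative. -/
def repUnit {m : ℕ} {x : Pic0 K F} {D : Divisor K F} {f : F} (h : IsRep m x D f) :
    kummerUnits K F m :=
  ⟨Units.mk0 f (PairAux_ne_zero h), fun P => by
    show (m : ℤ) ∣ P.ord f
    rw [h.ord_eq P]
    exact dvd_mul_right _ _⟩

theorem coe_repUnit {m : ℕ} {x : Pic0 K F} {D : Divisor K F} {f : F} (h : IsRep m x D f) :
    ((repUnit h : Fˣ) : F) = f := rfl

/-- a class represented by an `m`-th power vanishes: `m • D = divOf (t ^ m) = m • divOf t`, divisors are torsion free, so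
`D = divOf t`; conclude with `PairAux_mk_eq_mk_iff` (or `Pic0.mk_eq_zero_iff`-type lemma). -/
theorem eq_zero_of_isRep_pow {m : ℕ} (hm : m ≠ 0) {x : Pic0 K F} {D : Divisor K F} {t : F}
    (h : IsRep m x D (t ^ m)) : x = 0 := by
  obtain ⟨hD, rfl, hf, hdiv⟩ := h
  have ht : t ≠ 0 := fun h0 => hf (by rw [h0, zero_pow hm])
  have hDt : D = divOf (K := K) t := by
    rw [divOf_pow] at hdiv
    ext P
    have h1 := DFunLike.congr_fun hdiv P
    rw [Finsupp.smul_apply, Finsupp.smul_apply, nsmul_eq_mul, nsmul_eq_mul] at h1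
    exact (mul_left_cancel₀ (by exact_mod_cast hm) h1).symm
  have h0 : (0 : Pic0 K F) = Pic0.mk ⟨0, zero_mem _⟩ := rfl
  rw [h0, eq_comm, PairAux_mk_eq_mk_iff]
  exact ⟨t, ht, by rw [zero_add, hDt]⟩

/-- `KV.mk f = 0 ⟹ x = 0`: `KV.mk_eq_zero_iff` gives `t ^ m = f`; `eq_zero_of_isRep_pow`. -/
theorem eq_zero_of_mk_unit_eq_zero {m : ℕ} (hm : m ≠ 0) {x : Pic0 K F} {D : Divisor K F} {f : F}
    (h : IsRep m x D f) (h0 : KV.mk (repUnit h) = 0) : x = 0 := by
  obtain ⟨y, hy⟩ := (KV.mk_eq_zero_iff _).1 h0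
  have h1 : ((y : F)) ^ m = f := by
    have := congrArg (fun u : Fˣ => (u : F)) hy
    simp only [Units.val_pow_eq_pow_val] at this
    exact this
  subst h1
  exact eq_zero_of_isRep_pow hm h

/-- The Kummer cocycle: `m x₁ = [D₀]`, `g D₀ = D₀`.  `divOf (g • f / f) = g • divOf f - divOf f` (`divOf_smul`)
`= m (g X - X) - (g D₀ - D₀)`.  Class: `SemilinearAut.pic0_smul_mk` as in `IsRep.smul`. -/
theorem isRep_kummer (g : SemilinearAut K F) {m : ℕ} {X D₀ : Divisor K F} {f : F} (hf : f ≠ 0)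
    (hX : X ∈ Divisor.degZero (K := K) (F := F)) (hdiv : divOf (K := K) f = m • X - D₀)
    (hg : g • D₀ = D₀) :
    IsRep m (g • Pic0.mk ⟨X, hX⟩ - Pic0.mk ⟨X, hX⟩) (g • X - X) (g • f / f) := by
  have hgX : g • X ∈ Divisor.degZero (K := K) (F := F) := SemilinearAut.smul_mem_degZero g hX
  have hgf : g • f ≠ 0 := (smul_ne_zero_iff_ne g).mpr hf
  refine ⟨sub_mem hgX hX, ?_, div_ne_zero hgf hf, ?_⟩
  · rw [SemilinearAut.pic0_smul_mk]
    have e : (⟨g • X - X, sub_mem hgX hX⟩ : Divisor.degZero (K := K) (F := F)) =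
        SemilinearAut.degZeroSMulHom g ⟨X, hX⟩ - ⟨X, hX⟩ :=
      Subtype.ext (by rw [AddSubgroup.coe_sub, SemilinearAut.coe_degZeroSMulHom])
    rw [e]
    rfl
  · rw [div_eq_mul_inv, divOf_mul hgf (inv_ne_zero hf), divOf_inv, divOf_smul, hdiv, smul_sub, hg,
      smul_comm g m X, smul_sub]
    abel

/-- the Kummer class of a representative is equivariant (`KV.semilinear_smul_mk`; then `rfl`/`Subtype.ext`/`Units.ext`). -/
theorem mk_repUnit_smul (g : SemilinearAut K F) {m : ℕ} {x : Pic0 K F} {D : Divisor K F} {f : F}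
    (h : IsRep m x D f) : KV.mk (repUnit (h.smul g)) = g • KV.mk (repUnit h) := by
  rw [KV.semilinear_smul_mk]
  congr 1
  exact Subtype.ext (Units.ext rfl)

/-- (aux. for `smul_add_nsmul_eq_zero`) multiples of a representative. -/
theorem smul_add_nsmul_eq_zero_isRep_nsmul {m : ℕ} {x : Pic0 K F} {D : Divisor K F} {f : F}
    (h : IsRep m x D f) (n : ℕ) : IsRep m (n • x) (n • D) (f ^ n) := by
  induction n with
  | zero =>
    rw [zero_nsmul, zero_nsmul, pow_zero]
    exact isRep_zero m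
  | succ n ih =>
    rw [succ_nsmul, succ_nsmul, pow_succ]
    exact ih.add h

/-- A relation `g₁ κ + q g₂ κ = 0` between Kummer classes gives the same relation in `Pic⁰`.
`H : IsRep m (g₁ x + q g₂ x) (g₁ D + q g₂ D) (g₁ f * (g₂ f) ^ q)` (`IsRep.smul`, `IsRep.add`, induction on `q`), its Kummer
class is `g₁ κ + q g₂ κ` (`KV.mk_mul`, `KV.mk_pow`, `mk_repUnit_smul`), conclude by `eq_zero_of_mk_unit_eq_zero`. -/
theorem smul_add_nsmul_eq_zero (g₁ g₂ : SemilinearAut K F) (q : ℕ) {m : ℕ} (hm : m ≠ 0)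
    {x : Pic0 K F} {D : Divisor K F} {f : F} (h : IsRep m x D f)
    (h0 : g₁ • KV.mk (repUnit h) + q • (g₂ • KV.mk (repUnit h)) = 0) :
    g₁ • x + q • (g₂ • x) = 0 := by
  have H := (h.smul g₁).add (smul_add_nsmul_eq_zero_isRep_nsmul (h.smul g₂) q)
  refine eq_zero_of_mk_unit_eq_zero hm H ?_
  have e : repUnit H = repUnit (h.smul g₁) * repUnit (h.smul g₂) ^ q :=
    Subtype.ext (Units.ext (by
      simp only [Subgroup.coe_mul, Subgroup.coe_pow, Units.val_mul, Units.val_pow_eq_pow_val,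
        coe_repUnit]))
  rw [e, KV.mk_mul, KV.mk_pow, mk_repUnit_smul, mk_repUnit_smul]
  exact h0

end Rep

section Bilin

variable {K F : Type*} [Field K] [IsAlgClosed K] [CharZero K] [Field F] [Algebra K F] [IsFF K F]

/-- from `weil_add_left` applied to `x + (-x) = 0` and `weil_zero_left`. -/
theorem weil_neg_left {m : ℕ} {x y : Pic0 K F} (hx : x ∈ Pic0.torsion K F m)
    (hy : y ∈ Pic0.torsion K F m) : weil m (-x) y = (weil m x y)⁻¹ := by
  have hnx : -x ∈ Pic0.torsion K F m := (Pic0.torsion K F m).neg_mem hx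
  have h1 := weil_add_left hx hnx hy
  rw [add_neg_cancel, weil_zero_left] at h1
  exact eq_inv_of_mul_eq_one_right h1.symm

/-- induction on `n` with `weil_add_left` (`Pic0.torsion` is a subgroup). -/
theorem weil_nsmul_left {m : ℕ} {x y : Pic0 K F} (hx : x ∈ Pic0.torsion K F m)
    (hy : y ∈ Pic0.torsion K F m) (n : ℕ) : weil m (n • x) y = weil m x y ^ n := by
  induction n with
  | zero => rw [zero_nsmul, weil_zero_left, pow_zero]
  | succ n ih =>
    rw [succ_nsmul, weil_add_left ((Pic0.torsion K F m).nsmul_mem hx n) hx hy, ih, pow_succ]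

/-- `weil_swap` + `weil_neg_left`. -/
theorem weil_neg_right {m : ℕ} {x y : Pic0 K F} (hx : x ∈ Pic0.torsion K F m)
    (hy : y ∈ Pic0.torsion K F m) : weil m x (-y) = (weil m x y)⁻¹ := by
  rw [weil_swap m (-y) x, weil_neg_left hy hx, inv_inv, weil_swap m x y]

/-- `weil_swap` + `weil_nsmul_left`. -/
theorem weil_nsmul_right {m : ℕ} {x y : Pic0 K F} (hx : x ∈ Pic0.torsion K F m)
    (hy : y ∈ Pic0.torsion K F m) (n : ℕ) : weil m x (n • y) = weil m x y ^ n := by
  rw [weil_swap m (n • y) x, weil_nsmul_left hy hx, weil_swap m x y, inv_pow, inv_inv]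

/-- **Weights.**  If `φ x = - q w x`, `φ y = - q w y`, `w` is `K`-linear and `φ` raises the `m`-th roots of unity to
the `q`-th power, `(q, m) = 1`, then `e_m(x, y) ^ (q - 1) = 1`.
Put `W = e_m(x, y)`, `W ^ m = 1` (`weil_pow`).  `e(φ x, φ y) = baseAut φ W = W ^ q` (`weil_smul`), `φ x = - q w x`, so
`e(φ x, φ y) = e(w x, w y) ^ (q ^ 2) = W ^ (q ^ 2)` (`weil_smul` for `w`, `hw`).  Hence `(W ^ (q - 1)) ^ q = 1` and
`(W ^ (q - 1)) ^ m = 1`: `pow_gcd_eq_one` / `Nat.Coprime`. -/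
theorem weil_pow_eq_one_of_frob {m q : ℕ} (hqm : Nat.Coprime q m) (hq : 0 < q)
    (w φ : SemilinearAut K F) (hw : SemilinearAut.baseAut w = 1)
    (hφ : ∀ z : K, z ^ m = 1 → SemilinearAut.baseAut φ z = z ^ q)
    {x y : Pic0 K F} (hx : x ∈ Pic0.torsion K F m) (hy : y ∈ Pic0.torsion K F m)
    (hφx : φ • x + q • (w • x) = 0) (hφy : φ • y + q • (w • y) = 0) :
    weil m x y ^ (q - 1) = 1 := by
  have hWm : weil m x y ^ m = 1 := weil_pow m x y
  have tors : ∀ {z : Pic0 K F}, z ∈ Pic0.torsion K F m → w • z ∈ Pic0.torsion K F m := by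
    intro z hz
    obtain ⟨D, f, h, -⟩ := exists_isRep hz ∅
    exact (h.smul w).mem_torsion
  have hwx := tors hx
  have hwy := tors hy
  have e1 : weil m (φ • x) (φ • y) = weil m x y ^ q := by
    rw [weil_smul]
    apply Units.ext
    rw [Units.coe_map, Units.val_pow_eq_pow_val]
    apply hφ
    rw [← Units.val_pow_eq_pow_val, hWm, Units.val_one]
  have e2 : weil m (w • x) (w • y) = weil m x y := by
    rw [weil_smul, hw]
    apply Units.ext
    rfl
  have e3 : weil m (φ • x) (φ • y) = weil m x y ^ (q * q) := by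
    rw [eq_neg_of_add_eq_zero_left hφx, eq_neg_of_add_eq_zero_left hφy,
      weil_neg_left ((Pic0.torsion K F m).nsmul_mem hwx q)
        ((Pic0.torsion K F m).neg_mem ((Pic0.torsion K F m).nsmul_mem hwy q)),
      weil_neg_right ((Pic0.torsion K F m).nsmul_mem hwx q)
        ((Pic0.torsion K F m).nsmul_mem hwy q), inv_inv,
      weil_nsmul_left hwx ((Pic0.torsion K F m).nsmul_mem hwy q), weil_nsmul_right hwx hwy, e2,
      ← pow_mul]
  have e4 : (weil m x y ^ (q - 1)) ^ q = 1 := by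
    have h1 : weil m x y ^ q * (weil m x y ^ (q - 1)) ^ q = weil m x y ^ q := by
      rw [← pow_mul, ← pow_add, ← e1, e3]
      congr 1
      obtain ⟨r, rfl⟩ : ∃ r, q = r + 1 := ⟨q - 1, by omega⟩
      simp only [Nat.add_sub_cancel]
      ring
    exact mul_eq_left.mp h1
  have e5 : (weil m x y ^ (q - 1)) ^ m = 1 := by
    rw [← pow_mul, mul_comm, pow_mul, hWm, one_pow]
  have e6 := pow_gcd_eq_one.2 ⟨e4, e5⟩
  rwa [hqm.gcd_eq_one, pow_one] at e6

end Bilin

section Cover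

variable {K F F' k Fb : Type*} [Field K] [IsAlgClosed K] [CharZero K] [Field F] [Field F']
  [Algebra K F] [Algebra K F'] [Algebra F F'] [IsScalarTower K F F'] [FiniteDimensional F F']
  [Algebra.IsSeparable F F'] [IsFF K F] [IsFF K F'] [Field k] [Field Fb] [Algebra k Fb]

/-- `Pic0.pullbackHom_mk`, `Pic0.coe_pullbackDegZeroHom`, `divOf_algebraMap_eq_pullback` (S19/Weil/NormOrd), `map_nsmul`. -/
theorem isRep_pullback {m : ℕ} {x : Pic0 K F} {D : Divisor K F} {f : F} (h : IsRep m x D f) :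
    IsRep m (Pic0.pullbackHom F' x) (Divisor.pullback F' D) (algebraMap F F' f) := by
  obtain ⟨hD, rfl, hf, hdiv⟩ := h
  refine ⟨Divisor.pullback_mem_degZero hD, ?_, (map_ne_zero _).2 hf, ?_⟩
  · rw [Pic0.pullbackHom_mk]
    rfl
  · rw [divOf_algebraMap_eq_pullback, hdiv, map_nsmul]

/-- `(pullback D) w = e(w) * D (w.restrict F)` (look for `Divisor.pullback_apply` in the Prelude / S19/Weil/Proj). -/
theorem disjD_pullback {D E : Divisor K F} (h : DisjD D E) :
    DisjD (Divisor.pullback F' D) (Divisor.pullback F' E) := by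
  intro w
  rcases h (w.restrict F) with h1 | h1
  · left
    rw [Divisor.pullback_apply, h1, mul_zero]
  · right
    rw [Divisor.pullback_apply, h1, mul_zero]

/-- `e_m(π^* x, π^* y) = e_m(x, y) ^ [F' : F]`.  Representatives `(D, f)`, `(E, g)` with `DisjD D E` as in
`exists_isWeilValue`; `weil_eq` upstairs (`isRep_pullback`, `disjD_pullback`) and downstairs;
`evD (algebraMap f) (pullback E) = evD f (mapRestrict (pullback E))` (`evD_algebraMap_eq`) `= evD f ([F':F] • E)`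
(`Lvl.mapRestrict_pullback`) `= evD f E ^ [F':F]` (`evD_nsmul`/`map_nsmul`-type lemma in S19/Weil/Ev). -/
theorem weil_pullback {m : ℕ} {x y : Pic0 K F} (hx : x ∈ Pic0.torsion K F m)
    (hy : y ∈ Pic0.torsion K F m) :
    weil m (Pic0.pullbackHom F' x) (Pic0.pullbackHom F' y) = weil m x y ^ Module.finrank F F' := by
  obtain ⟨D, f, h, -⟩ := exists_isRep hx ∅
  obtain ⟨E, g, hE, hav⟩ := exists_isRep hy D.support
  have hd : DisjD D E := by
    intro P
    by_cases hP : P ∈ D.support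
    · exact Or.inr (hav P hP)
    · exact Or.inl (Finsupp.notMem_support_iff.mp hP)
  rw [weil_eq (isRep_pullback (F' := F') h) (isRep_pullback (F' := F') hE)
    (disjD_pullback (F' := F') hd), weil_eq h hE hd, evD_algebraMap_eq, evD_algebraMap_eq,
    Fermat.Agent.S19.Lvl.mapRestrict_pullback, Fermat.Agent.S19.Lvl.mapRestrict_pullback,
    evD_nsmul, evD_nsmul, div_pow]

variable (F) in
/-- The classes of `Pic⁰(F)[m]` whose pull back to `F'` is in `K_tor`. -/
def KP (R₁ R₂ : RedData K F' k Fb) (m : ℕ) : AddSubgroup (Pic0 K F) where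
  carrier := {x | ∃ D f, IsRep m x D f ∧ Near R₁ m (algebraMap F F' f) ∧
    Near R₂ m (algebraMap F F' f)}
  zero_mem' := ⟨0, 1, isRep_zero m, by rw [map_one]; exact near_one _ _,
    by rw [map_one]; exact near_one _ _⟩
  add_mem' := by
    rintro x y ⟨D, f, h, h1, h2⟩ ⟨E, g, h', h1', h2'⟩
    exact ⟨D + E, f * g, h.add h', by rw [map_mul]; exact h1.mul h1',
      by rw [map_mul]; exact h2.mul h2'⟩
  neg_mem' := by
    rintro x ⟨D, f, h, h1, h2⟩
    exact ⟨-D, f⁻¹, isRep_neg h, by rw [map_inv₀]; exact h1.inv, by rw [map_inv₀]; exact h2.inv⟩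

theorem KP_le_torsion (R₁ R₂ : RedData K F' k Fb) (m : ℕ) {x : Pic0 K F} (hx : x ∈ KP F R₁ R₂ m) :
    x ∈ Pic0.torsion K F m := by
  obtain ⟨D, f, h, -⟩ := hx
  exact h.mem_torsion

section Inertia

variable (R₁ R₂ : RedData K F' k Fb) {m : ℕ} (hm : 0 < m) (hS₁ : HasScale R₁) (hS₂ : HasScale R₂)
  (g : SemilinearAut K F) (g' : SemilinearAut K F')
  (hgg' : ∀ f : F, g' • algebraMap F F' f = algebraMap F F' (g • f))
  (h₁ : Compat R₁ g' (RingEquiv.refl Fb)) (h₂ : Compat R₂ g' (RingEquiv.refl Fb))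

include hm hS₁ hS₂ hgg' h₁ h₂

/-- **P1.** -/
theorem smul_sub_mem_KP {x : Pic0 K F} (hx : x ∈ Pic0.torsion K F m) :
    g • x - x ∈ KP F R₁ R₂ m := by
  obtain ⟨D, f, h, -⟩ := exists_isRep hx ∅
  have hf : algebraMap F F' f ≠ 0 := (map_ne_zero _).2 (PairAux_ne_zero h)
  refine ⟨g • D - D, g • f / f, isRep_sub (h.smul g) h, ?_, ?_⟩
  · rw [map_div₀, ← hgg']
    exact near_smul_div R₁ hm hS₁ g' h₁ hf
  · rw [map_div₀, ← hgg']
    exact near_smul_div R₂ hm hS₂ g' h₂ hf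

/-- **P3.** -/
theorem kummer_mem_KP {X D₀ : Divisor K F} {f : F} (hf : f ≠ 0)
    (hX : X ∈ Divisor.degZero (K := K) (F := F)) (hdiv : divOf (K := K) f = m • X - D₀)
    (hg : g • D₀ = D₀) :
    g • Pic0.mk ⟨X, hX⟩ - Pic0.mk ⟨X, hX⟩ ∈ KP F R₁ R₂ m := by
  have hf' : algebraMap F F' f ≠ 0 := (map_ne_zero _).2 hf
  refine ⟨g • X - X, g • f / f, isRep_kummer g hf hX hdiv hg, ?_, ?_⟩
  · rw [map_div₀, ← hgg']
    exact near_smul_div R₁ hm hS₁ g' h₁ hf'
  · rw [map_div₀, ← hgg']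
    exact near_smul_div R₂ hm hS₂ g' h₂ hf'

end Inertia

/-- **P2.** `KP` is almost isotropic. -/
theorem weil_pow_eq_one (X : TwoRed K F' k Fb) {m q : ℕ} (hqm : Nat.Coprime q m) (hq : 0 < q)
    (hm : m ≠ 0) (w φ : SemilinearAut K F') (hw : SemilinearAut.baseAut w = 1)
    (hφ : ∀ z : K, z ^ m = 1 → SemilinearAut.baseAut φ z = z ^ q)
    (hfrob : ∀ κ ∈ Ktor X m, φ • κ + q • (w • κ) = 0)
    {x y : Pic0 K F} (hx : x ∈ KP F X.R1 X.R2 m) (hy : y ∈ KP F X.R1 X.R2 m) :
    weil m x y ^ ((q - 1) * Module.finrank F F') = 1 := by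
  have key : ∀ {x : Pic0 K F}, x ∈ KP F X.R1 X.R2 m →
      φ • Pic0.pullbackHom F' x + q • (w • Pic0.pullbackHom F' x) = 0 := by
    rintro x ⟨D, f, h, h1, h2⟩
    have h' := isRep_pullback (F' := F') h
    refine smul_add_nsmul_eq_zero φ w q hm h' (hfrob _ ⟨?_, ?_⟩)
    · exact mk_mem_Kone_of_near X.R1 _ h1
    · exact mk_mem_Kone_of_near X.R2 _ h2
  have tors : ∀ {x : Pic0 K F}, x ∈ KP F X.R1 X.R2 m →
      Pic0.pullbackHom F' x ∈ Pic0.torsion K F' m := by
    rintro x ⟨D, f, h, -⟩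
    exact (isRep_pullback (F' := F') h).mem_torsion
  rw [mul_comm, pow_mul, ← weil_pullback (F' := F') (KP_le_torsion _ _ _ hx) (KP_le_torsion _ _ _ hy)]
  exact weil_pow_eq_one_of_frob hqm hq w φ hw hφ (tors hx) (tors hy) (key hx) (key hy)

end Cover

end Fermat.Agent.S15.P
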