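import Fermat.Agent.S15.P.Abs
import Fermat.Agent.DR.Final
import Fermat.Agent.GAL.Cyclo
import Fermat.Agent.Lib.Frobenius

/-!
# S15, block P (local condition at the level `q = N`), concrete part.

`q` a prime, `M` a neat auxiliary level prime to `q` (`M = 4` or `9`), `A` a place of `ℚ̄` over `q`.

* `KN A M q hq hqM hA m` : the subgroup of `J₀(q)[m]` of the classes whose pull back to the level `M q` is toric at `A`;
* `smul_sub_mem_KN`      : `(σ - 1) J₀(q)[m] ⊆ KN` for `σ` in the inertia group of `A`;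
* `kummer_mem_KN`        : `σ y - y ∈ KN` if `m y` is the class of a `σ`-invariant divisor;
* `exists_isotropy`      : `e_m(x, y) ^ ((q - 1) d) = 1` on `KN`, `d ≠ 0` independent of `m`.
-/

set_option autoImplicit false
set_option linter.unusedSectionVars false
set_option linter.style.haveILetI false

noncomputable section

namespace Fermat.Agent.S15.P

open ModularCurve AlgebraicCurve Fermat.Agent.S24 Fermat.Agent.GAL Fermat.Agent.GAL.RED
  Fermat.Agent.Lib.RR Fermat.Agent.DR Fermat.Agent.DR.Gal Fermat.Agent.S19.Weil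

instance instIsFF_FN (N : ℕ) [NeZero N] : Lib.RR.IsFF Kbar (FN N) :=
  Fermat.Agent.GAL.Desc.isFF_FF_Kbar N

variable (A : ValuationSubring Kbar) (M q : ℕ) [NeZero M] [NeZero q] (hq : q.Prime)
  (hqM : ¬ q ∣ M) (hA : A.LiesOverPrime q)

/-- `F(q) ⊆ F(M q)`. -/
def up : FN q →ₐ[Kbar] FN (M * q) := lvl (Dvd.intro_left M rfl)

theorem gal_up (σ : GQ) (f : FN q) : gal (M * q) σ • up M q f = up M q (gal q σ • f) :=
  (lvl_arithmeticRingAut (Dvd.intro_left M rfl) σ f).symm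

/-- The toric part of `J₀(q)[m]` at `A`. -/
def KN (m : ℕ) : AddSubgroup (JZero q) where
  carrier := {x | ∃ D f, IsRep m x D f ∧ Near (Conc.R1 A M q hq hqM hA) m (up M q f) ∧
    Near (Conc.R2 A M q hq hqM hA) m (up M q f)}
  zero_mem' := ⟨0, 1, isRep_zero m, by rw [map_one]; exact near_one _ _,
    by rw [map_one]; exact near_one _ _⟩
  add_mem' := by
    rintro x y ⟨D, f, h, h1, h2⟩ ⟨E, g, h', h1', h2'⟩
    exact ⟨D + E, f * g, h.add h', by rw [map_mul]; exact h1.mul h1',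
      by rw [map_mul]; exact h2.mul h2'⟩
  neg_mem' := by
    rintro x ⟨D, f, h, h1, h2⟩
    exact ⟨-D, f⁻¹, isRep_neg h, by rw [map_inv₀]; exact h1.inv, by rw [map_inv₀]; exact h2.inv⟩

theorem KN_le_torsion (m : ℕ) {x : JZero q} (hx : x ∈ KN A M q hq hqM hA m) :
    x ∈ Pic0.torsion Kbar (FN q) m := by
  obtain ⟨D, f, h, -⟩ := hx
  exact h.mem_torsion

/-- **P3.** Kummer cocycles of invariant divisors take their values in `KN` on the inertia group. -/
theorem kummer_mem_KN {m : ℕ} (hm : 0 < m) (σ : GQ) (hσ : σ ∈ A.inertiaSubgroupIn ℚ)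
    (D₀ : Divisor Kbar (FN q)) (hD₀ : D₀ ∈ Divisor.degZero (K := Kbar) (F := FN q))
    (hfix : gal q σ • D₀ = D₀) (y : JZero q) (hy : m • y = Pic0.mk ⟨D₀, hD₀⟩) :
    σ • y - y ∈ KN A M q hq hqM hA m := by
  obtain ⟨⟨X, hX⟩, rfl⟩ := Pic0.mk_surjective y
  have hmX : m • X ∈ Divisor.degZero (K := Kbar) (F := FN q) :=
    (Divisor.degZero (K := Kbar) (F := FN q)).nsmul_mem hX m
  have h1 : Pic0.mk ⟨D₀, hD₀⟩ = Pic0.mk ⟨m • X, hmX⟩ := by
    rw [← hy]
    rfl
  obtain ⟨f, hf, hdiv⟩ := (PairAux_mk_eq_mk_iff hD₀ hmX).mp h1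
  have hdiv' : divOf (K := Kbar) f = m • X - D₀ := by
    rw [hdiv]
    abel
  have hf' : up M q f ≠ 0 := (map_ne_zero _).2 hf
  refine ⟨gal q σ • X - X, gal q σ • f / f, isRep_kummer (gal q σ) hf hX hdiv' hfix, ?_, ?_⟩
  · rw [map_div₀, ← gal_up]
    exact near_smul_div _ hm (Conc.R1_scale A M q hq hqM hA) _
      (compat_R1_of_inertia A M q hq hqM hA σ hσ) hf'
  · rw [map_div₀, ← gal_up]
    exact near_smul_div _ hm (Conc.R2_scale A M q hq hqM hA) _
      (compat_R2_of_inertia A M q hq hqM hA σ hσ) hf'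

/-- **P1.** -/
theorem smul_sub_mem_KN {m : ℕ} (hm : 0 < m) (σ : GQ) (hσ : σ ∈ A.inertiaSubgroupIn ℚ)
    {x : JZero q} (hx : x ∈ Pic0.torsion Kbar (FN q) m) :
    σ • x - x ∈ KN A M q hq hqM hA m := by
  refine kummer_mem_KN A M q hq hqM hA hm σ hσ 0 (zero_mem _) (smul_zero _) x ?_
  have h1 : (m : ℤ) • x = 0 := Pic0.mem_torsion.mp hx
  rw [natCast_zsmul] at h1
  rw [h1]
  rfl

include hq hA in
/-- A Frobenius element raises the `m`-th roots of unity to the `q`-th power. -/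
theorem frob_root {m : ℕ} (hm : ¬ q ∣ m) {σ : GQ} (hσ : A.IsFrobeniusAt σ q) {z : Kbar}
    (hz : z ^ m = 1) : σ z = z ^ q := by
  have hm0 : m ≠ 0 := by rintro rfl; exact hm (dvd_zero _)
  have hzA : z ∈ A := Cyclo.mem_of_pow_eq_one A hm0 hz
  refine Cyclo.eq_of_sub_mem_nonunits A hq hA hm ?_ ?_ (Cyclo.sub_pow_mem_of_isFrobeniusAt hσ hzA)
  · rw [← map_pow, hz, map_one]
  · rw [← pow_mul, mul_comm, pow_mul, hz, one_pow]

/-- `DRGeom` for all exponents prime to `q` (copy of `DR.Final.drGeomAll_of_neat`). -/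
theorem drGeom_of_neat [Fact q.Prime] [CharP (IsLocalRing.ResidueField ↥A) q]
    [PerfectRing (IsLocalRing.ResidueField ↥A) q] (hneat : 4 ∣ M ∨ 9 ∣ M) {m : ℕ} (hm : ¬ q ∣ m) :
    DRGeom A M q hq hqM hA m := by
  haveI : Lib.RR.IsFF Kbar (FN M) := Fermat.Agent.GAL.Desc.isFF_FF_Kbar M
  haveI := Igusa.isAlgClosed_residueField A
  have hM := Conc.natCast_M_ne_zero A M q hq hqM hA
  haveI := Igusa.isFF_E (IsLocalRing.ResidueField ↥A) M hM
  have hg : Conc.GoodRed A M := Conc.goodRed_of_neat A M hM Igusa.cuspUpper Igusa.cuspLower hneat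
  exact DR.Final.drGeom_of_pairHyp A M q hq hqM hA (fun _ => rfl) (fun _ => rfl)
    (Conc.pairHyp A M q hq hqM hA hg) (fun σ _ => Conc.gal_xC M q σ) (Conc.W_xC M q hq hqM)
    (Conc.FrE_sig _ M q) (natCast_residueField_ne_zero A hq hA hm)

/-- **P2.** `KN` is almost isotropic. -/
theorem exists_isotropy (hneat : 4 ∣ M ∨ 9 ∣ M) : ∃ d : ℕ, d ≠ 0 ∧ ∀ m : ℕ, Nat.Coprime q m →
    ∀ x ∈ KN A M q hq hqM hA m, ∀ y ∈ KN A M q hq hqM hA m, weil m x y ^ ((q - 1) * d) = 1 := by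
  letI : Algebra (FN q) (FN (M * q)) := algebraAlong (up M q)
  haveI : IsScalarTower Kbar (FN q) (FN (M * q)) := isScalarTower_along (up M q)
  haveI : FiniteDimensional (FN q) (FN (M * q)) := finiteAlong_lvl (Dvd.intro_left M rfl)
  haveI : Algebra.IsSeparable (FN q) (FN (M * q)) := inferInstance
  haveI : Fact q.Prime := ⟨hq⟩
  haveI := Hecke.charP_residueField A hq hA
  haveI := perfectRing_residueField q A
  haveI := Fermat.Agent.Lib.Frobenius.isGalois_algebraicClosure inferInstance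
  obtain ⟨φ, hφ⟩ := Fermat.Agent.Lib.Frobenius.exists_isFrobeniusAt A hq hA
  refine ⟨Module.finrank (FN q) (FN (M * q)), Module.finrank_pos.ne', fun m hm x hx y hy => ?_⟩
  have hqm : ¬ q ∣ m := fun h => hq.one_lt.ne' (Nat.Coprime.eq_one_of_dvd hm h)
  have hm0 : m ≠ 0 := by rintro rfl; exact hqm (dvd_zero _)
  refine weil_pow_eq_one (F := FN q) (F' := FN (M * q)) (XX A M q hq hqM hA 0 0 ∅) hm hq.pos hm0
    (wS M q hq hqM) (gal (M * q) φ) rfl (fun z hz => frob_root A q hq hA hqm hφ hz) ?_ hx hy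
  intro κ hκ
  have := frob_of_DRGeom A M q hq hqM hA (drGeom_of_neat A M q hq hqM hA hneat hqm) φ hφ hκ
  rwa [wKV_eq M q hq hqM] at this

end Fermat.Agent.S15.P
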